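import Fermat.Statements.S02
-- import your own Fermat.Agent.* helpers here

set_option autoImplicit false
open FreyPackage

namespace Fermat.Agent.S02

/-- Coprime version with `b` even: produce a Frey package. -/
theorem of_coprime_even (a b c : ℤ) (ha : a ≠ 0) (hb : b ≠ 0) (hc : c ≠ 0) (p : ℕ)
    (pp : p.Prime) (hp5 : 5 ≤ p) (H : a ^ p + b ^ p = c ^ p) (hgcd : gcd a b = 1)
    (hb2 : (2 : ℤ) ∣ b) : Nonempty FreyPackage := by
  have hpodd : Odd p := pp.odd_of_ne_two (by omega)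
  have hb2' : (b : ZMod 2) = 0 := (ZMod.intCast_zmod_eq_zero_iff_dvd b 2).2 hb2
  -- a is odd
  have ha_odd : ¬ (2 : ℤ) ∣ a := by
    intro h2a
    have h2 : (2 : ℤ) ∣ gcd a b := dvd_gcd h2a hb2
    rw [hgcd] at h2
    norm_num at h2
  have ha_mod : a % 4 = 1 ∨ a % 4 = 3 := by omega
  rcases ha_mod with h1 | h3
  · -- negate everything
    refine ⟨⟨-a, -b, -c, neg_ne_zero.2 ha, neg_ne_zero.2 hb, neg_ne_zero.2 hc, p, pp, hp5, ?_, ?_,
      ?_, ?_⟩⟩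
    · rw [hpodd.neg_pow, hpodd.neg_pow, hpodd.neg_pow, ← H]; ring
    · rw [gcd_neg, neg_gcd]; exact hgcd
    · have h4 : ((-a : ℤ) : ZMod 4) = ((3 : ℤ) : ZMod 4) := by
        rw [ZMod.intCast_eq_intCast_iff_dvd_sub]
        omega
      simpa using h4
    · simpa using hb2'
  · refine ⟨⟨a, b, c, ha, hb, hc, p, pp, hp5, H, hgcd, ?_, hb2'⟩⟩
    have h4 : ((a : ℤ) : ZMod 4) = ((3 : ℤ) : ZMod 4) := by
      rw [ZMod.intCast_eq_intCast_iff_dvd_sub]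
      omega
    simpa using h4

/-- Coprime version: produce a Frey package. -/
theorem of_coprime (a b c : ℤ) (ha : a ≠ 0) (hb : b ≠ 0) (hc : c ≠ 0) (p : ℕ)
    (pp : p.Prime) (hp5 : 5 ≤ p) (H : a ^ p + b ^ p = c ^ p) (hgcd : gcd a b = 1) :
    Nonempty FreyPackage := by
  have hpodd : Odd p := pp.odd_of_ne_two (by omega)
  have hp0 : p ≠ 0 := pp.ne_zero
  by_cases hb2 : (2 : ℤ) ∣ b
  · exact of_coprime_even a b c ha hb hc p pp hp5 H hgcd hb2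
  by_cases ha2 : (2 : ℤ) ∣ a
  · exact of_coprime_even b a c hb ha hc p pp hp5 (by rw [add_comm]; exact H)
      (by rw [gcd_comm]; exact hgcd) ha2
  -- both odd, so c is even
  have hc2 : (2 : ℤ) ∣ c := by
    have hap : ¬ (2 : ℤ) ∣ a ^ p := fun h => ha2 (Int.prime_two.dvd_of_dvd_pow h)
    have hbp : ¬ (2 : ℤ) ∣ b ^ p := fun h => hb2 (Int.prime_two.dvd_of_dvd_pow h)
    have hcp : (2 : ℤ) ∣ c ^ p := by
      rw [← H]; omega
    exact Int.prime_two.dvd_of_dvd_pow hcp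
  have hgcdac : gcd a c = 1 := by
    rw [← gcdab_eq_gcdac (Nat.pos_of_ne_zero hp0) H]; exact hgcd
  refine of_coprime_even a (-c) (-b) ha (neg_ne_zero.2 hc) (neg_ne_zero.2 hb) p pp hp5 ?_ ?_ ?_
  · rw [hpodd.neg_pow, hpodd.neg_pow, ← H]; ring
  · rw [gcd_neg]; exact hgcdac
  · exact (dvd_neg).2 hc2

theorem result (a b c : ℤ) (ha : a ≠ 0) (hb : b ≠ 0) (hc : c ≠ 0) (p : ℕ) (pp : p.Prime) (hp5 : 5 ≤ p) (H : a ^ p + b ^ p = c ^ p) : Nonempty FreyPackage := by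
  have hp0 : p ≠ 0 := pp.ne_zero
  -- divide out by the gcd of a and b
  obtain ⟨d, a', b', hdpos, hcop, rfl, rfl⟩ :
      ∃ (d a' b' : ℤ), d ≠ 0 ∧ gcd a' b' = 1 ∧ a = a' * d ∧ b = b' * d := by
    have hg : Int.gcd a b ≠ 0 := by
      rw [Ne, Int.gcd_eq_zero_iff]; tauto
    have hgpos : 0 < Int.gcd a b := Nat.pos_of_ne_zero hg
    obtain ⟨a', b', hcop, h1, h2⟩ := Int.exists_gcd_one hgpos
    refine ⟨(Int.gcd a b : ℤ), a', b', by exact_mod_cast hg, ?_, h1, h2⟩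
    rw [← Int.coe_gcd, hcop]; rfl
  have ha' : a' ≠ 0 := left_ne_zero_of_mul ha
  have hb' : b' ≠ 0 := left_ne_zero_of_mul hb
  -- d divides c
  have hdc : d ∣ c := by
    rw [← Int.pow_dvd_pow_iff hp0, ← H, mul_pow, mul_pow]
    exact dvd_add (dvd_mul_left _ _) (dvd_mul_left _ _)
  obtain ⟨c', rfl⟩ := hdc
  have hc' : c' ≠ 0 := right_ne_zero_of_mul hc
  refine of_coprime a' b' c' ha' hb' hc' p pp hp5 ?_ hcop
  have hdp : d ^ p ≠ 0 := pow_ne_zero _ hdpos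
  apply mul_right_cancel₀ hdp
  rw [add_mul, ← mul_pow, ← mul_pow, H]; ring

end Fermat.Agent.S02
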