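import Fermat.Statements.S05
import Fermat.Agent.S05.NodeModel
import Fermat.Agent.S05.InertiaAPI
import Fermat.Agent.S05.KerRed
import Fermat.Agent.S05.GoodRed
import Fermat.Agent.S05.BadCore
import Fermat.Agent.S05.NodeKapB

/-!
# S05: the mod `p` representation of the Frey curve is unramified at every prime `q ≠ 2, p`

* `q ∤ abc` (good reduction): `unramified_of_not_dvd` (`S05/GoodRed.lean`).
* `q ∣ abc` (multiplicative reduction): `Final.unramified_of_dvd` below.  In the normal form
  `Y² = X³ + An X² + Bn X` at the rational 2-torsion point reducing to the node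
  (`NodeModel.exists_node`: `|An| = 1`, `|Bn| = |u|ᵖ` with `q ∣ u`), a nonzero `p`-torsion point
  `T` has `|Xn T| = 1` or `|Bn| < |Xn T| = |u|^(2j) < 1` (`NodeKapB.node_torsion_val`, from the
  pair law for the clamped absolute value and its iteration), and in both cases an element of the
  inertia group fixes `T` (`BadCore.node_fixed_coord`, using that the kernel of reduction has no
  `p`-torsion).
-/

set_option autoImplicit false
open WeierstrassCurve WeierstrassCurve.Affine WeierstrassCurve.Affine.Point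
open CuspForm ModularFormClass UpperHalfPlane
open FreyPackage

namespace Fermat.Agent.S05

open Fermat.Agent.S05.XPair Fermat.Agent.S05.NodeModel

/-- **The case of multiplicative reduction**: if `q ∣ abc`, `q ≠ 2, p`, then the mod `p`
representation of the Frey curve is unramified at `q`. -/
theorem Final.unramified_of_dvd (P : FreyPackage) {q : ℕ} (hq : q.Prime) (hq2 : q ≠ 2)
    (hqp : q ≠ P.p) (hbad : (q : ℤ) ∣ P.a * P.b * P.c) : P.GaloisRepUnramifiedAt q := by
  intro A hA σ hσ ⟨T, hT⟩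
  apply Subtype.ext
  show σ • T = T
  have hv : ∀ n : ℤ, A.valuation ((n : ℤ) : AlgebraicClosure ℚ) < 1 ↔ (q : ℤ) ∣ n := fun n => by
    rw [← A.mem_nonunits_iff]
    exact InertiaAPI.intCast_mem_nonunits_iff hq hA
  have hpT : P.p • T = 0 := by
    have := (Submodule.mem_torsionBy_iff _ _).mp hT
    simpa using this
  rcases T with _ | ⟨x, y, h⟩
  · exact smul_zero σ
  obtain ⟨h₁, h₂, h₃, h₄, h₆⟩ := frey_integral P A.valuation hq hq2 hv
  have h2 := v_two A.valuation hq hq2 hv
  have hvp : A.valuation ((P.p : ℕ) : AlgebraicClosure ℚ) = 1 := by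
    have hnd : ¬ (q : ℤ) ∣ (P.p : ℤ) := by
      intro hd
      have hd' : q ∣ P.p := by exact_mod_cast hd
      exact hqp ((Nat.prime_dvd_prime_iff_eq hq P.pp).mp hd')
    have := v_intCast_eq_one A.valuation hv hnd
    exact_mod_cast this
  obtain ⟨ρ, u, hr, hρ, hAn, hBn, hqu, hu0⟩ := exists_node P A.valuation hq hq2 hv hbad
  have hu1 : A.valuation ((u : ℤ) : AlgebraicClosure ℚ) < 1 := (hv u).mpr hqu
  have hu0' : ((u : ℤ) : AlgebraicClosure ℚ) ≠ 0 := by exact_mod_cast hu0
  have hp2 : P.p ≠ 2 := by have := P.hp5; omega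
  -- `x` is integral: the kernel of reduction has no `p`-torsion
  have hx : A.valuation x ≤ 1 := by
    by_contra hcon
    rw [not_le] at hcon
    exact no_torsion_in_kernel A.valuation _ h₁ h₂ h₃ h₄ h₆ P.pp P.hp5 hvp h hcon hpT
  have hXle : A.valuation (4 * (x - algebraMap ℚ (AlgebraicClosure ℚ) ρ)) ≤ 1 := by
    obtain ⟨h4, -, -⟩ := v_ofNat_pow A.valuation h2
    rw [map_mul, h4, one_mul]
    exact Valuation.map_sub_le _ hx hρ
  -- the position of `T` relative to the node
  have hκ : A.valuation (4 * (x - algebraMap ℚ (AlgebraicClosure ℚ) ρ)) = 1 ∨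
      ∃ j : ℕ, A.valuation (4 * (x - algebraMap ℚ (AlgebraicClosure ℚ) ρ)) =
          A.valuation ((u : ℤ) : AlgebraicClosure ℚ) ^ j ∧
        A.valuation (Bn (freyK P (AlgebraicClosure ℚ)) (algebraMap ℚ (AlgebraicClosure ℚ) ρ)) <
          A.valuation (4 * (x - algebraMap ℚ (AlgebraicClosure ℚ) ρ)) ∧
        A.valuation (4 * (x - algebraMap ℚ (AlgebraicClosure ℚ) ρ)) < 1 := by
    rcases NodeKapB.node_torsion_val (v := A.valuation) (E := freyK P (AlgebraicClosure ℚ))
        (r := algebraMap ℚ (AlgebraicClosure ℚ) ρ) h2 hr hAn hu0' hu1 P.pp hp2 hBn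
        (T := Point.some x y h) (Point.some_ne_zero h) hpT with hge | ⟨hlt, hlt1, j, hj⟩
    · exact Or.inl (le_antisymm hXle hge)
    · exact Or.inr ⟨2 * j, hj.trans (map_pow _ _ _), hlt, hlt1⟩
  -- the action of `σ`
  have hσz : ∀ z : AlgebraicClosure ℚ, A.valuation z ≤ 1 →
      A.valuation ((σ : AlgebraicClosure ℚ ≃ₐ[ℚ] AlgebraicClosure ℚ).toRingEquiv.toRingHom z - z)
        < 1 := fun z hz =>
    A.mem_nonunits_iff.mp (InertiaAPI.apply_sub_mem_nonunits hσ ((A.valuation_le_one_iff z).mp hz))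
  have h' : (freyK P (AlgebraicClosure ℚ)).toAffine.Nonsingular (σ x) (σ y) :=
    ((P.freyCurve.toAffine).baseChange_nonsingular (f := σ.toAlgHom) σ.injective x y).mpr h
  have hT' : P.p • (Point.some (σ x) (σ y) h' :
      (freyK P (AlgebraicClosure ℚ)).toAffine.Point) = 0 := by
    have e := GoodRed.smul_nsmul (W' := P.freyCurve.toAffine) σ P.p (Point.some x y h)
    rw [hpT] at e
    exact e.symm
  exact BadCore.node_fixed_coord A.valuation (freyK P (AlgebraicClosure ℚ)) h₁ h₂ h₃ h₄ h₆ h2 P.pp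
    P.hp5 hvp hr hρ hAn hu1 hu0' hBn
    (σ : AlgebraicClosure ℚ ≃ₐ[ℚ] AlgebraicClosure ℚ).toRingEquiv.toRingHom hσz
    (map_intCast σ u) (σ.commutes ρ)
    (by rw [frey_a₁]; exact map_one _) (by rw [frey_a₃]; exact map_zero _) h h' hpT hT' hκ

theorem result (P : FreyPackage) {q : ℕ} (hq : q.Prime) (hq2 : q ≠ 2) (hqp : q ≠ P.p) : P.GaloisRepUnramifiedAt q := by
  by_cases hbad : (q : ℤ) ∣ P.a * P.b * P.c
  · exact Final.unramified_of_dvd P hq hq2 hqp hbad
  · exact unramified_of_not_dvd P hq hq2 hqp hbad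

end Fermat.Agent.S05
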