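-- Statement S07: every weight-2 cusp form of level Gamma0(2) is zero.
-- Proof: Sturm bound for Gamma0(N) from the Prelude, plus the bound [SL(2,Z) : Gamma0(2)] <= 3.
import Fermat.Statements.S07
import Fermat.Prelude.Thm_ModularForm_sturm_bound_Gamma0
import Fermat.Prelude.Thm_CongruenceSubgroup_one_mem_strictPeriods_Gamma0

set_option autoImplicit false
open WeierstrassCurve WeierstrassCurve.Affine WeierstrassCurve.Affine.Point
open CuspForm ModularFormClass UpperHalfPlane
open ModularForm

namespace Fermat.Agent.S07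

open scoped MatrixGroups

/-- Finite check over `ZMod 2`: two unimodular first columns are proportional iff equal. -/
theorem zmod2_check : ∀ a b c d a' b' c' d' : ZMod 2,
    a * d - b * c = 1 → a' * d' - b' * c' = 1 →
    ((-c) * a' + a * c' = 0 ↔ (a = a' ∧ c = c')) := by
  decide

/-- The first column mod 2 of an element of `SL(2, ℤ)`. -/
def col (g : SL(2, ℤ)) : ZMod 2 × ZMod 2 := ((g 0 0 : ℤ), (g 1 0 : ℤ))

theorem det_mod2 (g : SL(2, ℤ)) :
    ((g 0 0 : ℤ) : ZMod 2) * ((g 1 1 : ℤ) : ZMod 2) -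
      ((g 0 1 : ℤ) : ZMod 2) * ((g 1 0 : ℤ) : ZMod 2) = 1 := by
  have h := g.det_coe
  rw [Matrix.det_fin_two] at h
  have h2 := congrArg (Int.cast : ℤ → ZMod 2) h
  push_cast at h2
  exact h2

theorem col_ne_zero (g : SL(2, ℤ)) : col g ≠ (0, 0) := by
  intro h
  have h1 := det_mod2 g
  simp only [col, Prod.mk.injEq] at h
  rw [h.1, h.2] at h1
  simp at h1

theorem mem_Gamma0_two_iff (g h : SL(2, ℤ)) :
    g⁻¹ * h ∈ CongruenceSubgroup.Gamma0 2 ↔ col g = col h := by
  rw [CongruenceSubgroup.Gamma0_mem]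
  have hg := det_mod2 g
  have hh := det_mod2 h
  have key := zmod2_check _ _ _ _ _ _ _ _ hg hh
  simp only [col, Prod.mk.injEq]
  rw [← key]
  have e : ((g⁻¹ * h) 1 0 : ℤ) = (-(g 1 0)) * h 0 0 + g 0 0 * h 1 0 := by
    rw [Matrix.SpecialLinearGroup.coe_mul, Matrix.SpecialLinearGroup.SL2_inv_expl,
      Matrix.mul_apply]
    simp [Fin.sum_univ_two]
  rw [e]
  push_cast
  rfl

/-- The index of `Γ₀(2)` in `SL(2, ℤ)` is at most `3`. -/
theorem index_Gamma0_two_le : (CongruenceSubgroup.Gamma0 2).index ≤ 3 := by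
  classical
  rw [Subgroup.index_eq_card]
  let φ : SL(2, ℤ) ⧸ CongruenceSubgroup.Gamma0 2 → {v : ZMod 2 × ZMod 2 // v ≠ (0, 0)} :=
    Quotient.lift (fun g => ⟨col g, col_ne_zero g⟩) (by
      intro g h hgh
      have : g⁻¹ * h ∈ CongruenceSubgroup.Gamma0 2 := QuotientGroup.leftRel_apply.mp hgh
      exact Subtype.ext ((mem_Gamma0_two_iff g h).mp this))
  have hφ : Function.Injective φ := by
    intro x y
    induction x using Quotient.inductionOn with | _ g => ?_
    induction y using Quotient.inductionOn with | _ h => ?_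
    intro hxy
    apply Quotient.sound
    apply QuotientGroup.leftRel_apply.mpr
    exact (mem_Gamma0_two_iff g h).mpr (congrArg Subtype.val hxy)
  calc Nat.card (SL(2, ℤ) ⧸ CongruenceSubgroup.Gamma0 2)
      ≤ Nat.card {v : ZMod 2 × ZMod 2 // v ≠ (0, 0)} := Nat.card_le_card_of_injective φ hφ
    _ = 3 := by
      rw [Nat.card_eq_fintype_card]
      decide

theorem result (f : CuspForm (CongruenceSubgroup.Gamma0 2) 2) : f = 0 := by
  have hF : (ModularFormClass.modularForm f :
      ModularForm (CongruenceSubgroup.Gamma0 2) 2) = 0 := by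
    apply ModularForm.sturm_bound_Gamma0 2
    intro n hn
    have hidx := index_Gamma0_two_le
    have hn0 : n = 0 := by
      have : ((2 : ℤ) * ((CongruenceSubgroup.Gamma0 2).index : ℤ)).toNat / 12 = 0 := by
        omega
      omega
    subst hn0
    exact CuspFormClass.qExpansion_coeff_zero f one_pos
      (CongruenceSubgroup.one_mem_strictPeriods_Gamma0 2)
  ext z
  have := DFunLike.congr_fun hF z
  simpa using this

end Fermat.Agent.S07
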