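-- Statement S08: every weight-2 cusp form of level Gamma0(1) is zero.
-- Proof: Gamma0(1) is all of SL(2,Z); Mathlib's level-one dimension formula gives rank zero.
import Fermat.Statements.S08

set_option autoImplicit false
open WeierstrassCurve WeierstrassCurve.Affine WeierstrassCurve.Affine.Point
open CuspForm ModularFormClass UpperHalfPlane
open ModularForm

namespace Fermat.Agent.S08

open scoped MatrixGroups

/-- `Γ₀(1)` is the whole of `SL(2, ℤ)`. -/
theorem Gamma0_one_eq_top : CongruenceSubgroup.Gamma0 1 = ⊤ := by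
  ext g
  simp [CongruenceSubgroup.Gamma0_mem, eq_iff_true_of_subsingleton]

/-- The image of `Γ₀(1)` in `GL(2, ℝ)` is the image of `SL(2, ℤ)`. -/
theorem Gamma0_one_coe_eq_SL :
    ((CongruenceSubgroup.Gamma0 1 : Subgroup SL(2, ℤ)) : Subgroup (GL (Fin 2) ℝ)) = 𝒮ℒ := by
  rw [Gamma0_one_eq_top, MonoidHom.range_eq_map]

/-- Weight-2 cusp forms for any subgroup equal to `𝒮ℒ` vanish. -/
theorem eq_zero_of_eq_SL (Γ : Subgroup (GL (Fin 2) ℝ)) (hΓ : Γ = 𝒮ℒ) (f : CuspForm Γ 2) :
    f = 0 := by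
  subst hΓ
  exact rank_zero_iff_forall_zero.mp
    (CuspForm.rank_eq_zero_of_weight_lt_twelve (k := 2) (by norm_num)) f

theorem result (f : CuspForm (CongruenceSubgroup.Gamma0 1) 2) : f = 0 :=
  eq_zero_of_eq_SL _ Gamma0_one_coe_eq_SL f

end Fermat.Agent.S08
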