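-- Statement S11: there is no Frey package with `p = 11`, since Fermat's Last Theorem holds for
-- the exponent 11 (Kummer's proof, class number one), so the statement holds vacuously.
import Fermat.Statements.S11
import Fermat.Agent.FLTSmall.FLT11

set_option autoImplicit false
open WeierstrassCurve WeierstrassCurve.Affine WeierstrassCurve.Affine.Point
open CuspForm ModularFormClass UpperHalfPlane
open FreyPackage

namespace Fermat.Agent.S11

theorem result (P : FreyPackage) (hp : P.p = 11) : ¬ HasGaloisStableCofixedLine (K := AlgebraicClosure ℚ) ℚ P.freyCurve P.p := by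
  exfalso
  have h := P.hFLT
  rw [hp] at h
  exact Fermat.Agent.FLTSmall.false_of_flt Fermat.Agent.FLTSmall.flt_eleven P.ha0 P.hb0 P.hc0 h

end Fermat.Agent.S11
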