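import Fermat.Statements.S13
import Fermat.Agent.S13.FinLevel
import Fermat.Agent.S13.Torsion
import Fermat.Agent.S13.Assembly

/-!
# S13: if the mod `p` representation of the Frey curve is reducible, it has a Galois-stable
cofixed line

* `Torsion.frey_card_torsion`: the `p`-torsion of the Frey curve over `ℚ̄` has `p²` elements
  (generic point of the curve, exact degree of the multiplication-by-`p` map on `x`-coordinates).
* `FinLevel.cofixed_of_forall_numberField`: reduction to the number field `L` generated by the
  coordinates of the `p`-torsion points.
* `Assembly.level_result`: the statement at level `L`, from the local analysis of the inertia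
  groups at all primes (trivial at `q ≠ 2, p`; unipotent at `2`; at `p` through the kernel of
  reduction, which does not contain all of the `p`-torsion) and Minkowski's theorem; the case of
  a rational point of order `p` is excluded `2`-adically.
-/

set_option autoImplicit false
open WeierstrassCurve WeierstrassCurve.Affine WeierstrassCurve.Affine.Point
open CuspForm ModularFormClass UpperHalfPlane
open FreyPackage

namespace Fermat.Agent.S13

theorem result (P : FreyPackage) (hred : ¬ GaloisRepIsIrreducible (K := AlgebraicClosure ℚ) ℚ P.freyCurve P.p) : HasGaloisStableCofixedLine (K := AlgebraicClosure ℚ) ℚ P.freyCurve P.p := by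
  have hcard := Torsion.frey_card_torsion P (AlgebraicClosure ℚ)
  have hfin : Finite (Submodule.torsionBy ℤ (P.freyCurve⁄(AlgebraicClosure ℚ)).Point P.p) := by
    apply Nat.finite_of_card_ne_zero
    rw [hcard]
    exact pow_ne_zero 2 P.hp0
  exact FinLevel.cofixed_of_forall_numberField P.freyCurve P.p (Set.toFinite _)
    (fun L _ _ _ _ _ _ hL hredL => Assembly.level_result P L hL hredL) hred

end Fermat.Agent.S13
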