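-- Statement S14 (row 13): the frozen statement ExtCitation.FermatFrozen.S14
-- (Fermat/Statements/S14.lean; the theorem ExtCitation.extVanishingCts_of_three_le).
import Fermat.Statements.S14
import Fermat.Agent.S14.AdmFinal
import Fermat.Agent.S14.NoField

set_option autoImplicit false
open ExtCitation

namespace Fermat.Agent.S14

theorem result {p : ℕ} [Fact p.Prime] (h3 : 3 ≤ p) :
    ExtCitation.ExtVanishingCts p :=
  AdmFinal.extVanishingCts_of_noField h3 (NoFieldMain.noField p (by omega))

end Fermat.Agent.S14
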