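-- Statement S22: the Hecke algebra of `S_k(Γ₀(N))` is a finite `ℤ`-module.
import Fermat.Statements.S22
import Fermat.Agent.S22.Key
import Fermat.Agent.S22.AbsAlg
import Fermat.Agent.S49.QCoeff

set_option autoImplicit false
open CuspForm

namespace Fermat.Agent.S22

namespace Final

open UpperHalfPlane CongruenceSubgroup ModularFormClass
open scoped MatrixGroups ModularForm

variable {N : ℕ} {k : ℤ}

/-- Cusp forms of weight `≤ 0` on `Γ₀(N)` vanish. -/
theorem cuspForm_eq_zero_of_nonpos [NeZero N] (hk : k ≤ 0) (f : CuspForm (Gamma0 N) k) :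
    f = 0 := by
  let F : ModularForm (Gamma0 N) k :=
    { toSlashInvariantForm := f.toSlashInvariantForm
      holo' := f.holo'
      bdd_at_cusps' := fun hc γ hγ => (f.zero_at_cusps' hc γ hγ).boundedAtFilter }
  have hF : ∀ τ, F τ = f τ := fun τ => rfl
  rcases hk.lt_or_eq with hk | rfl
  · have h0 := ModularForm.isZero_of_neg_weight hk F
    ext τ
    rw [← hF τ, h0]
    rfl
  · obtain ⟨c, hc⟩ := ModularForm.eq_const_of_weight_zero F
    have hfc : (f : ℍ → ℂ) = Function.const ℍ c := hc
    have hz : IsZeroAtImInfty (f : ℍ → ℂ) := CuspFormClass.zero_at_infty f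
    rw [hfc] at hz
    have h0 : c = 0 := tendsto_nhds_unique tendsto_const_nhds hz
    ext τ
    rw [hfc, h0]
    rfl

/-- The `n`-th `q`-coefficient, as a linear functional on cusp forms. -/
noncomputable def coeffFun (N : ℕ) (k : ℤ) (n : ℕ) : Module.Dual ℂ (CuspForm (Gamma0 N) k) where
  toFun f := qCoeff ⇑f n
  map_add' f g := S49.qCoeff_add f g n
  map_smul' c f := by simpa using S49.qCoeff_smul c f n

@[simp] theorem coeffFun_apply (n : ℕ) (f : CuspForm (Gamma0 N) k) :
    coeffFun N k n f = qCoeff ⇑f n := rfl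

/-- The `ℤ`-lattice spanned by the coefficient functionals. -/
noncomputable def coeffLattice (N : ℕ) (k : ℤ) :
    Submodule ℤ (Module.Dual ℂ (CuspForm (Gamma0 N) k)) :=
  Submodule.span ℤ (Set.range (coeffFun N k))

theorem coeffLattice_fg (N : ℕ) [NeZero N] (k : ℤ) : (coeffLattice N k).FG := by
  obtain ⟨s, hs⟩ := cuspForm_coeff_lattice N k
  have hle : coeffLattice N k ≤
      Submodule.span ℤ (s : Set (Module.Dual ℂ (CuspForm (Gamma0 N) k))) := by
    rw [coeffLattice, Submodule.span_le]
    rintro _ ⟨n, rfl⟩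
    obtain ⟨c, hc⟩ := hs n
    have : coeffFun N k n = ∑ ψ ∈ s, c ψ • ψ := by
      ext f
      simp only [coeffFun_apply, qCoeff, hc f, LinearMap.coe_sum, Finset.sum_apply,
        LinearMap.smul_apply, zsmul_eq_mul]
    rw [this]
    exact Submodule.sum_mem _ fun ψ hψ => Submodule.smul_mem _ _ (Submodule.subset_span hψ)
  exact Submodule.FG.of_le (Submodule.fg_span s.finite_toSet) hle

theorem comp_mem_coeffLattice [NeZero N] (hk : 1 ≤ k) (S : Set ℕ)
    (t : Module.End ℂ (CuspForm (Gamma0 N) k)) (ht : t ∈ CuspForm.heckeGenerators N k S)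
    (l : Module.Dual ℂ (CuspForm (Gamma0 N) k)) (hl : l ∈ coeffLattice N k) :
    l.comp t ∈ coeffLattice N k := by
  unfold coeffLattice at hl
  induction hl using Submodule.span_induction with
  | mem l hl =>
    obtain ⟨n, rfl⟩ := hl
    rcases ht with ⟨ℓ, hℓ, hℓN, -, rfl⟩ | ⟨q, hqN, hq, -, rfl⟩
    · have hpow : ((ℓ : ℂ)) ^ (k - 1) = (((ℓ ^ (k - 1).toNat : ℕ) : ℤ) : ℂ) := by
        have hk' : ((k - 1).toNat : ℤ) = k - 1 := Int.toNat_of_nonneg (by omega)
        conv_lhs => rw [← hk']
        push_cast
        rw [zpow_natCast]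
      have : (coeffFun N k n).comp (CuspForm.heckeTLin k hℓ hℓN) =
          coeffFun N k (n * ℓ) +
            if ℓ ∣ n then ((ℓ ^ (k - 1).toNat : ℕ) : ℤ) • coeffFun N k (n / ℓ) else 0 := by
        ext f
        simp only [LinearMap.coe_comp, Function.comp_apply, coeffFun_apply,
          S49.qCoeff_heckeTLin hℓ hℓN f n, LinearMap.add_apply]
        split_ifs with h
        · simp only [LinearMap.smul_apply, coeffFun_apply, zsmul_eq_mul, hpow]
        · simp
      rw [this]
      refine Submodule.add_mem _ (Submodule.subset_span ⟨_, rfl⟩) ?_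
      split_ifs
      · exact Submodule.smul_mem _ _ (Submodule.subset_span ⟨_, rfl⟩)
      · exact Submodule.zero_mem _
    · have : (coeffFun N k n).comp (CuspForm.heckeULin k hqN) = coeffFun N k (n * q) := by
        ext f
        simp only [LinearMap.coe_comp, Function.comp_apply, coeffFun_apply,
          S49.qCoeff_heckeULin hq hqN f n]
      rw [this]
      exact Submodule.subset_span ⟨_, rfl⟩
  | zero =>
    have : (0 : Module.Dual ℂ (CuspForm (Gamma0 N) k)).comp t = 0 := by
      ext; simp
    rw [this]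
    exact Submodule.zero_mem _
  | add x y _ _ hx hy =>
    have : (x + y).comp t = x.comp t + y.comp t := by
      ext; simp
    rw [this]
    exact Submodule.add_mem _ hx hy
  | smul c x _ hx =>
    have : (c • x).comp t = c • x.comp t := by
      ext; simp
    rw [this]
    exact Submodule.smul_mem _ _ hx

end Final

theorem result (N : ℕ) [NeZero N] (k : ℤ) (S : Set ℕ) :
    Module.Finite ℤ (CuspForm.heckeAlgebra N k S) := by
  by_cases hk : k ≤ 0
  · have h1 : Subsingleton (Module.End ℂ (CuspForm (CongruenceSubgroup.Gamma0 N) k)) :=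
      ⟨fun a b => LinearMap.ext fun v => by
        rw [Final.cuspForm_eq_zero_of_nonpos hk (a v), Final.cuspForm_eq_zero_of_nonpos hk (b v)]⟩
    have h2 : Subsingleton (CuspForm.heckeAlgebra N k S) :=
      ⟨fun a b => Subtype.ext (Subsingleton.elim _ _)⟩
    infer_instance
  · have hk' : 1 ≤ k := by omega
    unfold CuspForm.heckeAlgebra
    refine AbsAlg.finite_adjoin_of_stable_lattice _ (Final.coeffLattice N k)
      (Final.coeffLattice_fg N k) ?_ ?_
    · intro f hf
      apply S49.eq_zero_of_qCoeff_eq_zero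
      intro n
      exact hf (Final.coeffFun N k n) (Submodule.subset_span ⟨n, rfl⟩)
    · exact fun t ht l hl => Final.comp_mem_coeffLattice hk' S t ht l hl

end Fermat.Agent.S22
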