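-- Statement S23: `S₂(Γ₀(N))` has an integral structure.
import Fermat.Statements.S23
import Fermat.Agent.S22
import Fermat.Agent.S23.Reduce
import Fermat.Agent.S23.GaloisConj

set_option autoImplicit false
open CuspForm

namespace Fermat.Agent.S23

theorem result (N : ℕ) [NeZero N] : CuspForm.HasIntegralStructure N 2 :=
  Reduce.hasIntegralStructure_of_galois_stable N 2 (by norm_num) (Fermat.Agent.S22.result N 2 ∅)
    (fun σ f => cuspForm_conj N 2 σ f)

end Fermat.Agent.S23
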