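import Fermat.Statements.S20
import Fermat.Agent.S20.Final
import Fermat.Agent.S20.Sep
import Fermat.Agent.S20.Cosets

set_option autoImplicit false
open CuspForm
open scoped MatrixGroups

namespace Fermat.Agent.S20

theorem result (N : ℕ) [NeZero N] :
    (Module.finrank ℂ (CuspForm (CongruenceSubgroup.Gamma0 N) 2) : ℚ) = ModularCurve.genusFormula N := by
  have hneg : (-1 : SL(2, ℤ)) ∈ CongruenceSubgroup.Gamma0 N := by
    rw [CongruenceSubgroup.Gamma0_mem]; simp
  have h := twelve_mul_finrank_CF_two (CongruenceSubgroup.Gamma0 N) hneg (exists_sep_Gamma0 N)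
  rw [Cosets.card_fixed_S, Cosets.card_fixed_ST, Cosets.card_orbits_T, ← Subgroup.index_eq_card,
    Cosets.index_Gamma0,
    ← finrank_cuspForm_eq] at h
  have h' : (12 : ℚ) * (Module.finrank ℂ (CuspForm (CongruenceSubgroup.Gamma0 N) 2) : ℚ)
      = 12 + (ModularCurve.dedekindPsi N : ℚ) - 3 * ModularCurve.nuTwo N
        - 4 * ModularCurve.nuThree N - 6 * ModularCurve.cuspCount N := by
    exact_mod_cast h
  unfold ModularCurve.genusFormula
  linarith

end Fermat.Agent.S20
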