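import Fermat.Statements.S16
import Fermat.Agent.S16.Defs
import Fermat.Agent.S16.Glue
import Fermat.Agent.S16.CohEquiv
import Fermat.Agent.S16.CohPrim
import Fermat.Agent.S16.Crossing
import Fermat.Agent.S16.Parab
import Fermat.Agent.S16.EtaQuot
import Fermat.Agent.S16.Root12B
import Fermat.Agent.S16.Duality
import Fermat.Agent.S16.EisSeries
import Fermat.Agent.S16.CheapBound
import Fermat.Agent.S16.ConstTermCore
import Fermat.Agent.S16.UnitCore
import Fermat.Agent.S16.Case2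
import Fermat.Agent.S21
import Fermat.Agent.S23
import Fermat.Agent.S22.Esymm

/-!
# S16: the Eisenstein quotient of the Hecke ring of `Γ₀(p)` has order `num((p - 1)/12)`

Assembly of the modules `Fermat/Agent/S16/*`:
* `card_quotient_eq` (Glue): the index is `n` as soon as `evE (ker π) = n ℤ`;
* (D1) `n ∣ evE Q` for `Q ∈ ker π`: the Eisenstein class `Φ` of `Δ(pz)/Δ(z)` in `Hom(Γ₀(p), ℤ)`,
  Hecke operators on cohomology, Eichler--Shimura (S21), the crossing homomorphism and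
  `12 ∈ Φ(Γ₀(p)) ℤ`;
* (D2) conversely `evE (ker π) ∋ n`: duality between the Hecke ring and the lattice of cusp forms
  and Mazur's bound on the constant term of a weight-two form with integral higher coefficients.
-/

set_option autoImplicit false
open ModularCurve CuspForm
open ModularCurve

namespace Fermat.Agent.S16

namespace Main

open ModularCurve.Period CongruenceSubgroup UpperHalfPlane ModularForm
open ModularFormClass
open scoped MatrixGroups ModularForm Manifold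

variable (p : ℕ) [Fact p.Prime]

/-- arithmetic: `a ∣ 12 x → a / gcd(a,12) ∣ x` -/
theorem arith_d1 (a : ℕ) (ha : 0 < a) (x : ℤ) (h : (a : ℤ) ∣ 12 * x) :
    ((a / Nat.gcd a 12 : ℕ) : ℤ) ∣ x := by
  set g := Nat.gcd a 12 with hg
  have hgpos : 0 < g := Nat.gcd_pos_of_pos_left _ ha
  obtain ⟨n, hn⟩ : g ∣ a := Nat.gcd_dvd_left _ _
  obtain ⟨e, he⟩ : g ∣ 12 := Nat.gcd_dvd_right _ _
  have hcop : Nat.Coprime n e := by
    have := Nat.coprime_div_gcd_div_gcd (m := a) (n := 12) hgpos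
    rwa [← hg, hn, he, Nat.mul_div_cancel_left _ hgpos, Nat.mul_div_cancel_left _ hgpos] at this
  have hdiv : a / g = n := by rw [hn, Nat.mul_div_cancel_left _ hgpos]
  rw [hdiv]
  have h2 : ((g : ℤ) * n) ∣ (g : ℤ) * (e * x) := by
    have : (12 : ℤ) = (g : ℤ) * e := by exact_mod_cast he
    rw [← mul_assoc, ← this]
    rw [hn] at h
    exact_mod_cast h
  have h3 : (n : ℤ) ∣ e * x := (mul_dvd_mul_iff_left (by exact_mod_cast hgpos.ne')).mp h2
  exact (Nat.isCoprime_iff_coprime.mpr hcop).dvd_of_dvd_mul_left h3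

/-- (D1) -/
theorem d1 (Q : HeckeAlg) (hQ : Q ∈ RingHom.ker (piHom p)) :
    (eisensteinNumerator p : ℤ) ∣ evE p Q := by
  have hp : p.Prime := Fact.out
  have hint : HasIntegralStructure p 2 := Fermat.Agent.S23.result p
  have h0 : heckeEvalForms p 2 Q = 0 := by
    have h00 : latticeRestrictHom p ∅ (heckeEvalForms p 2 Q) = 0 := hQ
    exact (latticeRestrictHom_bijective p ∅ hint).1 (h00.trans (map_zero _).symm)
  obtain ⟨F, E, hFE, hexp, hFint, hFT, hET, hEU⟩ := exists_eisPrim p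
  have hF : IsEquivariantPrimitive (Gamma0 p) F := fun γ => by
    obtain ⟨m, hm⟩ := hFint γ
    exact ⟨m, hm⟩
  have hTF : ∀ ℓ : ℕ, ℓ.Prime → ℓ ≠ p → ∃ c : ℂ, ∀ z : ℍ,
      (∑ j ∈ Finset.range ℓ, F (heckeMatrix ℓ j • z)) + F (heckeDiagMatrix ℓ • z)
        - ((ℓ : ℂ) + 1) * F z = c := by
    intro ℓ hℓ hℓp
    refine heckeT_primitive_const ℓ hℓ.ne_zero F E (fun z => ((ℓ : ℂ) + 1) * F z) hFE ?_
    intro τ
    rw [hET ℓ hℓ hℓp]
    exact (hFE τ).const_mul ((ℓ : ℂ) + 1)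
  have hUF : ∃ c : ℂ, ∀ z : ℍ, (∑ j ∈ Finset.range p, F (heckeMatrix p j • z)) - F z = c := by
    refine heckeU_primitive_const p hp.ne_zero F E F hFE ?_
    intro τ
    rw [hEU]
    exact hFE τ
  obtain ⟨Θ, hΘ1, hΘ2, hΘ3⟩ := exists_coh_operator p F hF hTF hUF Q
  obtain ⟨ψ, hψint, hψT⟩ := exists_crossing_hom p
  have hΦT : hF.periodHom (Additive.ofMul (gT p)) = (p : ℂ) - 1 := by
    rw [IsEquivariantPrimitive.periodHom_apply]
    exact hFT UpperHalfPlane.I
  set lam : Additive (Gamma0 p) →+ ℂ := hF.periodHom - ((p : ℤ) - 1) • ψ with hlam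
  have hlamP : lam ∈ parabolicHoms ℂ (Gamma0 p) ℂ := by
    refine mem_parabolicHoms_of_T p lam ?_
    simp [hlam, hΦT, hψT]
  rw [← (Fermat.Agent.S21.result p).2] at hlamP
  obtain ⟨⟨f, g⟩, hfg⟩ := hlamP
  have hΘlam : Θ lam = 0 := by
    rw [← hfg, hΘ1, h0]
    simp only [ZeroMemClass.coe_zero, LinearMap.zero_apply, Prod.mk_zero_zero, map_zero]
  have h1 : (evE p Q : ℤ) • hF.periodHom = ((p : ℤ) - 1) • Θ ψ := by
    have h := hΘlam
    rw [hlam, map_sub, map_zsmul, hΘ2] at h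
    exact sub_eq_zero.mp h
  obtain ⟨γ, m, hγ, hm⟩ := Root12B.dvd_twelve_of_exp' p F E hFE hexp hFint hFT
  obtain ⟨r, hr⟩ := hΘ3 ψ hψint (Additive.ofMul γ)
  have h2 := congrArg (fun χ : Additive (Gamma0 p) →+ ℂ => χ (Additive.ofMul γ)) h1
  simp only [AddMonoidHom.smul_apply, IsEquivariantPrimitive.periodHom_apply, hr] at h2
  have hper : hF.period γ = (m : ℂ) := hγ UpperHalfPlane.I
  rw [hper] at h2
  have h3 : evE p Q * m = ((p : ℤ) - 1) * r := by
    have : ((evE p Q * m : ℤ) : ℂ) = ((((p : ℤ) - 1) * r : ℤ) : ℂ) := by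
      push_cast
      simpa [zsmul_eq_mul] using h2
    exact_mod_cast this
  obtain ⟨e, he⟩ := hm
  have h4 : ((p - 1 : ℕ) : ℤ) ∣ 12 * evE p Q := by
    refine ⟨r * e, ?_⟩
    have hp1 : ((p - 1 : ℕ) : ℤ) = (p : ℤ) - 1 := by
      have := hp.one_le
      push_cast [Nat.cast_sub this]
      ring
    rw [hp1, he]
    linear_combination (e : ℤ) * h3
  have := arith_d1 (p - 1) (by have := hp.two_le; omega) (evE p Q) h4
  simpa [eisensteinNumerator] using this

omit [Fact p.Prime] in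
theorem qCoeff_mf_smul_sub (c : ℂ) (E : ModularForm (Gamma0 p) 2) (f : CuspForm (Gamma0 p) 2)
    (n : ℕ) :
    qCoeff (c • (E - Fermat.Agent.S22.cuspToMod f) : ModularForm (Gamma0 p) 2) n =
      c * (qCoeff E n - qCoeff f n) := by
  rw [ConstTermCore.qCoeff_mf_smul]
  congr 1
  have h1 : (⇑(E - Fermat.Agent.S22.cuspToMod f) : ℍ → ℂ) =
      ⇑E - ⇑(Fermat.Agent.S22.cuspToMod f) := rfl
  rw [qCoeff, h1,
    ModularForm.qExpansion_sub one_pos (Fermat.Agent.S49.one_mem_sp p) E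
      (Fermat.Agent.S22.cuspToMod f), map_sub]
  rfl

omit [Fact p.Prime] in
theorem evE_C (a : ℤ) : evE p (MvPolynomial.C a) = a := by
  simp [evE]

/-- if the `ℓ^t` divides all of `evE (ker π)` then `ℓ^t ∣ n` -/
theorem primePow_dvd (ℓ : ℕ) (hℓ : ℓ.Prime) (t : ℕ)
    (h : ∀ Q ∈ RingHom.ker (piHom p), ((ℓ ^ t : ℕ) : ℤ) ∣ evE p Q) :
    ℓ ^ t ∣ eisensteinNumerator p := by
  have hp : p.Prime := Fact.out
  by_cases hS : ∃ f : CuspForm (Gamma0 p) 2, f ≠ 0
  · obtain ⟨f, a, hfa, hcong⟩ := exists_congruent_form p (ℓ ^ t) (pow_pos hℓ.pos t) h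
    obtain ⟨E, hE0, hEk⟩ := exists_eisenstein p
    set g : ModularForm (Gamma0 p) 2 :=
      (((ℓ : ℂ) ^ t)⁻¹) • (E - Fermat.Agent.S22.cuspToMod f) with hg
    have hℓt : ((ℓ : ℂ) ^ t) ≠ 0 := pow_ne_zero _ (by exact_mod_cast hℓ.ne_zero)
    have hgk : ∀ k, 0 < k → ∃ m : ℤ, qCoeff g k = (m : ℂ) := by
      intro k hk
      obtain ⟨c, hc⟩ := hcong k hk
      refine ⟨-c, ?_⟩
      rw [hg, qCoeff_mf_smul_sub, hEk k hk, hfa k]
      have hc' : ((a k : ℤ) : ℂ) - (sigmaStar p k : ℂ) = (ℓ : ℂ) ^ t * c := by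
        have := congrArg (fun x : ℤ => (x : ℂ)) hc
        push_cast at this
        exact this
      field_simp
      push_cast
      linear_combination -hc'
    have hg0 : qCoeff g 0 = ((ℓ : ℂ) ^ t)⁻¹ * (((p : ℂ) - 1) / 24) := by
      rw [hg, qCoeff_mf_smul_sub, hE0, Fermat.Agent.S49.qCoeff_cusp_zero, sub_zero]
    obtain ⟨d, m, hd, hdm⟩ := ConstTermCore.const_term_bound_of p (UnitCore.no_unit_form_ge5 p)
      (UnitCore.no_unit_form_three p) (no_unit_form_two p) ℓ hℓ g hgk (cheap_bound_int p g hgk hS)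
    rw [hg0] at hdm
    -- integer identity
    set g₀ := Nat.gcd (p - 1) 12 with hg₀
    have hg₀pos : 0 < g₀ := Nat.gcd_pos_of_pos_right _ (by norm_num)
    obtain ⟨n, hn⟩ : g₀ ∣ p - 1 := Nat.gcd_dvd_left _ _
    obtain ⟨e, he⟩ : g₀ ∣ 24 := (Nat.gcd_dvd_right _ _).trans (by norm_num)
    have hnum : eisensteinNumerator p = n := by
      rw [eisensteinNumerator, ← hg₀, hn, Nat.mul_div_cancel_left _ hg₀pos]
    have he' : 24 / g₀ = e := by rw [he, Nat.mul_div_cancel_left _ hg₀pos]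
    rw [he'] at hdm
    have hp1 : ((p : ℂ) - 1) = (g₀ : ℂ) * n := by
      have h1 : ((p - 1 : ℕ) : ℂ) = (p : ℂ) - 1 := by
        rw [Nat.cast_sub hp.one_le]; simp
      rw [← h1, hn]; push_cast; ring
    have h24 : (24 : ℂ) = (g₀ : ℂ) * e := by exact_mod_cast congrArg (fun x : ℕ => (x : ℂ)) he
    have hg₀C : (g₀ : ℂ) ≠ 0 := by exact_mod_cast hg₀pos.ne'
    have heC : (e : ℂ) ≠ 0 := by
      intro h0
      rw [h0, mul_zero] at h24
      norm_num at h24
    have hint : (d : ℂ) * n = (ℓ : ℂ) ^ t * m := by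
      rw [hp1, h24] at hdm
      field_simp at hdm
      linear_combination hdm
    have hintZ : d * (n : ℤ) = (ℓ : ℤ) ^ t * m := by exact_mod_cast hint
    rw [hnum]
    have hcop : IsCoprime ((ℓ : ℤ) ^ t) d := by
      apply IsCoprime.pow_left
      rw [Int.isCoprime_iff_gcd_eq_one]
      exact Int.isCoprime_iff_gcd_eq_one.mp
        ((Nat.prime_iff_prime_int.mp hℓ).coprime_iff_not_dvd.mpr hd)
    have hdvd : ((ℓ : ℤ) ^ t) ∣ d * (n : ℤ) := ⟨m, hintZ⟩
    have := hcop.dvd_of_dvd_mul_left hdvd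
    exact_mod_cast this
  · -- no cusp forms: the Hecke ring is the zero ring
    push Not at hS
    have hsub : Subsingleton ↥(intLattice p 2) :=
      ⟨fun x y => Subtype.ext ((hS x).trans (hS y).symm)⟩
    have h1 : (1 : HeckeAlg) ∈ RingHom.ker (piHom p) := by
      rw [RingHom.mem_ker]
      apply Subtype.ext
      apply LinearMap.ext
      intro x
      exact Subsingleton.elim _ _
    have h2 := h 1 h1
    rw [map_one] at h2
    have h3 : ℓ ^ t ∣ 1 := by exact_mod_cast h2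
    exact h3.trans (one_dvd _)

/-- (D2) -/
theorem d2 : ∃ Q ∈ RingHom.ker (piHom p), evE p Q = eisensteinNumerator p := by
  have hsurj : Function.Surjective (evE p) := fun a => ⟨MvPolynomial.C a, evE_C p a⟩
  obtain ⟨m, hm⟩ := (IsPrincipalIdealRing.principal
    (Ideal.map (evE p) (RingHom.ker (piHom p)))).principal
  have hmem : m ∈ Ideal.map (evE p) (RingHom.ker (piHom p)) := by
    rw [hm]; exact Submodule.mem_span_singleton_self m
  obtain ⟨Q₀, hQ₀, hQ₀m⟩ := (Ideal.mem_map_iff_of_surjective _ hsurj).mp hmem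
  have hall : ∀ Q ∈ RingHom.ker (piHom p), m ∣ evE p Q := by
    intro Q hQ
    have : evE p Q ∈ Ideal.map (evE p) (RingHom.ker (piHom p)) := Ideal.mem_map_of_mem _ hQ
    rw [hm] at this
    exact Ideal.mem_span_singleton.mp this
  have hdvd : m.natAbs ∣ eisensteinNumerator p := by
    rw [Nat.dvd_iff_prime_pow_dvd_dvd]
    intro ℓ t hℓ hℓt
    refine primePow_dvd p ℓ hℓ t fun Q hQ => ?_
    have h1 : ((ℓ ^ t : ℕ) : ℤ) ∣ m := by
      rw [← Int.natAbs_dvd_natAbs, Int.natAbs_natCast]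
      exact hℓt
    exact h1.trans (hall Q hQ)
  obtain ⟨c, hc⟩ := hdvd
  rcases Int.natAbs_eq m with hpos | hneg
  · refine ⟨MvPolynomial.C (c : ℤ) * Q₀, Ideal.mul_mem_left _ _ hQ₀, ?_⟩
    rw [map_mul, evE_C, hQ₀m, hc]
    push_cast
    rw [← Int.natCast_natAbs, ← hpos]; ring
  · refine ⟨MvPolynomial.C (-(c : ℤ)) * Q₀, Ideal.mul_mem_left _ _ hQ₀, ?_⟩
    rw [map_mul, evE_C, hQ₀m, hc]
    push_cast
    have : (m.natAbs : ℤ) = -m := by omega
    rw [← Int.natCast_natAbs, this]; ring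

theorem eisensteinNumerator_pos : 0 < eisensteinNumerator p := by
  have hp : p.Prime := Fact.out
  rw [eisensteinNumerator]
  exact Nat.div_pos (Nat.le_of_dvd (by have := hp.two_le; omega) (Nat.gcd_dvd_left _ _))
    (Nat.gcd_pos_of_pos_right _ (by norm_num))

end Main

theorem result
    (p : ℕ) [Fact p.Prime] :
    Nat.card (↥(heckeLatticeAlgebra p ∅) ⧸
        Ideal.map ((latticeRestrictHom p ∅).toRingHom.comp (heckeEvalForms p 2))
          (eisensteinIdeal p)) =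
      eisensteinNumerator p :=
  card_quotient_eq p _ (Main.eisensteinNumerator_pos p) (Main.d1 p) (Main.d2 p)

end Fermat.Agent.S16
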