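import Fermat.Statements.S18
import Fermat.Agent.S18.Top
import Fermat.Agent.S18.Top23

set_option autoImplicit false
open ModularCurve

namespace Fermat.Agent.S18

theorem result (N : ℕ) [NeZero N] {ℓ : ℕ}
    [Fact ℓ.Prime] (hℓN : ¬ ℓ ∣ N) (A : ValuationSubring (AlgebraicClosure ℚ)) (hA : A.LiesOverPrime ℓ)
    (h : ModularCurve.ReductionInputsModL A N) (m : ℕ) (hm : ¬ ℓ ∣ m) (z : ModularCurve.JZero N)
    (hmz : m • z = 0) (hz : ModularCurve.reductionModL A N z = 0) :
    z = 0 :=
  -- Route K.  `Top.result_of_K0` (Step1 + ConstK + Descent): the statement follows from the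
  -- number-field Kummer statement `Descent.KummerK0 A N p K` for every prime `p ≠ ℓ`, which is
  -- `Top23.exists_kummerK0` (the core contract applied through the `X₀(2)`- and `X₀(3)`-covers).
  Top.result_of_K0 N A (fun _ hp hpl => Top23.exists_kummerK0 N Fact.out hℓN A hA hp hpl)
    h m hm z hmz hz

end Fermat.Agent.S18
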