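import Fermat.Statements.S24
import Fermat.Agent.S24.Final
import Fermat.Agent.S24.Iota
import Fermat.Agent.S24.NormFree
import Fermat.Agent.S24.CuspPlaces
import Fermat.Agent.S24.PointData

/-!
# S24: the genus of the function field of `X₀(N)` over `ℚ̄` is the classical genus formula

Riemann–Hurwitz for `j : X₀(N) → ℙ¹`:
* `Final.genus_eq_genusFormula_of'` : the abstract count (Kähler differentials, places of degree
  one, principal divisors of degree zero) plus the numerics, via the dimension formula `S20`;
* `finiteDimensional_adjoin_j`, `transcendental_jBar` : `F` is finite over `ℚ̄(j)`;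
* `ord_eq_one_of_generic`, `exists_zeros_1728`, `exists_zeros_0` : ramification over finite
  values of `j` (orbits of `1`, `S`, `S T` on `SL(2,ℤ) ⧸ Γ₀(N)`);
* `exists_poles` : ramification over `j = ∞` (orbits of `T`, the cusps).
-/

set_option autoImplicit false
open ModularCurve

namespace Fermat.Agent.S24

theorem result (N : ℕ) [NeZero N]
    [AlgebraicCurve.HasCanonicalDivisor (K := AlgebraicClosure ℚ) (F := ↥(ModularCurve.modularFunctionFieldBar N))] :
    (AlgebraicCurve.genus (AlgebraicClosure ℚ) ↥(ModularCurve.modularFunctionFieldBar N) : ℚ)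
      = ModularCurve.genusFormula N :=
  genus_eq_genusFormula_of' N
    (fun L _ x hxL hx => exists_finset_places_ord_pos L x hxL hx)
    (finiteDimensional_adjoin_j N) (transcendental_jBar N)
    (fun a ha0 ha1 v hv => ord_eq_one_of_generic N a ha0 ha1 v hv)
    (exists_zeros_1728 N) (exists_zeros_0 N) (exists_poles N)

end Fermat.Agent.S24
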