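-- Statement S28 (row 27): the base change of the Igusa model of X_0(N) to a field of
-- characteristic ℓ ∤ N is an integral scheme.
-- Proof: Fermat/Agent/S28/*.lean (q-expansion principle on the three charts + degree count of the
-- reduced function field via the modular equation); final assembly in S28/Final.lean.
import Fermat.Statements.S28
import Fermat.Agent.S28.Final
import Fermat.Agent.S28.ModPkgJp
import Fermat.Agent.S28.CharLDegFinal

set_option autoImplicit false
open AlgebraicGeometry CategoryTheory CategoryTheory.Limits ModularCurve ModularCurve.IgusaScheme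
noncomputable section
set_option autoImplicit false
open ModularCurve ModularCurve.IgusaScheme

namespace Fermat.Agent.S28

set_option maxHeartbeats 4000000 in
set_option synthInstance.maxHeartbeats 400000 in
theorem result
    (N : ℕ) [NeZero N] (ℓ : ℕ) [Fact ℓ.Prime] (hℓN : ¬ ℓ ∣ N)
    (K : Type) [Field K] [CharP K ℓ] [Algebra ↥(GaloisRep.ratLocalizedAt ℓ) K] :
    IsIntegral ↑(pullback (igusaTo N ℓ)
      (Spec.map (CommRingCat.ofHom (algebraMap ↥(GaloisRep.ratLocalizedAt ℓ) K)))) :=
  Final.isIntegral_pullback N ℓ
    (fun d hd => ModPkgJp.isIntegral_jd d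
      (fun h => NeZero.ne N (Nat.eq_zero_of_zero_dvd (h ▸ hd))))
    (CharLDeg.exists_monomials N ℓ hℓN) K

end Fermat.Agent.S28
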