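-- Statement S37 (row 36): SpecializationExists for J_0(N) (Eichler-Shimura congruence, packaged form).
-- Proof: Skeleton2.result_of_redPlace with the four block theorems of Fermat/Agent/S37/.
import Fermat.Statements.S37
import Fermat.Agent.S37.Skeleton2
import Fermat.Agent.S37.HeckeInputs
import Fermat.Agent.S37.RedGal
import Fermat.Agent.S37.RedHecke
import Fermat.Agent.S37.CoverZero

set_option autoImplicit false
open ModularCurve

namespace Fermat.Agent.S37

theorem result (N p : ℕ) [NeZero N] (hcomm : ModularCurve.HeckeOperatorsCommuteBar N) : letI := ModularCurve.heckeModuleBar N; ∀ (_ : SMulCommClass (AlgebraicClosure ℚ ≃ₐ[ℚ] AlgebraicClosure ℚ) ModularCurve.HeckeAlg (ModularCurve.JZero N)), ModularCurve.SpecializationExists (K := ℚ) (L := AlgebraicClosure ℚ) N p (ModularCurve.JZero N) := by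
  refine Skeleton2.result_of_redPlace N p hcomm fun ℓ hℓ hℓNp A hA => ?_
  haveI : NeZero ℓ := ⟨hℓ.ne_zero⟩
  have hℓN : ¬ ℓ ∣ N := fun h => hℓNp (Dvd.dvd.mul_right h p)
  exact ⟨HeckeInputs.heckeInputsAlong N ℓ, RedGal.r_inertia N hℓ hℓN A hA,
    RedHecke.r_hecke N hℓ hℓN A hA, CoverZero.zeroSumConst N hℓ hℓN A hA⟩

end Fermat.Agent.S37
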