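-- Statement S49: Deligne–Serre lifting for the integral lattice of weight-two cusp forms.
import Fermat.Statements.S49
import Fermat.Agent.S49.Formal
import Fermat.Agent.S49.Lifting
import Fermat.Agent.S49.Ideal

set_option autoImplicit false
open CuspForm EisensteinWeightOne CongruenceSubgroup ModularFormClass
open FLT FLT.AbstractIntegralStructure

namespace Fermat.Agent.S49

theorem result
    {N : ℕ} [NeZero N] (h : CuspForm.HasIntegralBasis N) {a : ℕ → ℤ}
    (heig : FormalHecke.IsEigensystem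
      (fun ℓ => if ℓ ∣ N then 0 else ((chiNegThree ℓ : ℤ) : ℤ)) a)
    (hreal : CuspForm.IsLatticeRealized N a) :
    ∃ (f : CuspForm (Gamma0 N) 2) (_ : f.IsNormalizedEigenform)
      (𝔪' : Ideal (integralClosure ℤ ℂ)), 𝔪'.IsMaximal ∧
      ((3 : ℕ) : integralClosure ℤ ℂ) ∈ 𝔪' ∧
      ∀ (ℓ : ℕ) (_ : ℓ.Prime) (_ : ¬ ℓ ∣ N),
        ∃ c : integralClosure ℤ ℂ, (c : ℂ) = ModularFormClass.qCoeff f ℓ ∧
          c - (a ℓ : integralClosure ℤ ℂ) ∈ 𝔪' := by
  obtain ⟨f₀, hf₀, af, haf, h3⟩ := hreal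
  -- `af ≡ a` modulo 3
  have haf3 : ∀ n, (3 : ℤ) ∣ af n - a n := fun n => by
    have := dvd_add (h3 n) (bridgeProduct_coeff_sub_dvd a n)
    simpa using this
  haveI := finite_of_hasIntegralBasis h
  haveI := heckeAlgebra_finite h
  -- the ideal is proper
  have hI : m0 N f₀ ≠ ⊤ := by
    intro htop
    have h1 : (1 : CuspForm.heckeAlgebra N 2 ∅) ∈ m0 N f₀ := htop ▸ Submodule.mem_top
    have h1' : Div3 f₀ := h1
    obtain ⟨m, hm⟩ := h1' 1
    rw [← haf 1] at hm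
    have hm' : af 1 = 3 * m := by exact_mod_cast hm
    have := haf3 1
    rw [hm', heig.1] at this
    omega
  obtain ⟨g, χ, 𝔪', hg0, hmax, hgeig, hχ⟩ :=
    exists_eigen_lift (A := CuspForm.heckeAlgebra N 2 ∅) (V := CuspForm (Gamma0 N) 2)
      (CuspForm.heckeAlgebra N 2 ∅).val.toRingHom Subtype.val_injective (m0 N f₀) hI
  have hgeig' : ∀ t : CuspForm.heckeAlgebra N 2 ∅,
      (t : Module.End ℂ (CuspForm (Gamma0 N) 2)) g = ((χ t : integralClosure ℤ ℂ) : ℂ) • g :=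
    hgeig
  -- the generators
  let gen : (ℓ : ℕ) → ℓ.Prime → CuspForm.heckeAlgebra N 2 ∅ := fun ℓ hℓ =>
    if hN : ℓ ∣ N then CuspForm.heckeAlgebra.U hℓ hN (Set.notMem_empty _)
    else CuspForm.heckeAlgebra.T hℓ hN (Set.notMem_empty _)
  let lam : ℕ → ℂ := fun ℓ =>
    if hℓ : ℓ.Prime then ((χ (gen ℓ hℓ) : integralClosure ℤ ℂ) : ℂ) else 0
  let e : ℕ → ℂ := fun ℓ => if ℓ ∣ N then 0 else (ℓ : ℂ)
  let b : ℕ → ℂ := fun n => qCoeff ⇑g n
  have hweak : IsWeakEigen e lam b := by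
    intro ℓ hℓ n
    simp only [lam, dif_pos hℓ, gen, e, b]
    by_cases hN : ℓ ∣ N
    · simp only [dif_pos hN, if_pos hN, zero_mul, add_zero]
      have h1 := hgeig' (CuspForm.heckeAlgebra.U hℓ hN (Set.notMem_empty _))
      rw [CuspForm.heckeAlgebra.coe_U] at h1
      have h2 := congrArg (fun F : CuspForm (Gamma0 N) 2 => qCoeff ⇑F n) h1
      beta_reduce at h2
      rw [qCoeff_smul, qCoeff_heckeULin hℓ hN] at h2
      rw [← h2, mul_comm]
    · simp only [dif_neg hN, if_neg hN]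
      have h1 := hgeig' (CuspForm.heckeAlgebra.T hℓ hN (Set.notMem_empty _))
      rw [CuspForm.heckeAlgebra.coe_T] at h1
      have h2 := congrArg (fun F : CuspForm (Gamma0 N) 2 => qCoeff ⇑F n) h1
      beta_reduce at h2
      rw [qCoeff_smul, qCoeff_heckeTLin hℓ hN] at h2
      rw [← h2, mul_comm ℓ n]
      have e1 : ((ℓ : ℂ)) ^ ((2 : ℤ) - 1) = (ℓ : ℂ) := by norm_num
      rw [e1]
      split_ifs <;> ring
  -- the first coefficient does not vanish
  have hb1 : b 1 ≠ 0 := by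
    intro hb1
    apply hg0
    apply eq_zero_of_qCoeff_eq_zero
    intro n
    rcases Nat.eq_zero_or_pos n with h0 | hpos
    · rw [h0]; exact qCoeff_cusp_zero g
    · exact eq_zero_of_isWeakEigen hweak hb1 n hpos
  -- normalise
  let f : CuspForm (Gamma0 N) 2 := (b 1)⁻¹ • g
  have hc : ∀ n, qCoeff ⇑f n = (b 1)⁻¹ * b n := fun n => qCoeff_smul _ g n
  have hc1 : qCoeff ⇑f 1 = 1 := by rw [hc]; exact inv_mul_cancel₀ hb1
  have hlam : ∀ ℓ : ℕ, ℓ.Prime → lam ℓ = qCoeff ⇑f ℓ := by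
    intro ℓ hℓ
    have h1 := hweak ℓ hℓ 1
    have hnd : ¬ ℓ ∣ 1 := fun hd => hℓ.one_lt.ne' (Nat.dvd_one.mp hd)
    rw [if_neg hnd, mul_zero, add_zero, mul_one] at h1
    rw [hc, h1]
    field_simp
  have hE : FormalHecke.IsEigensystem e (fun n => qCoeff ⇑f n) := by
    refine ⟨hc1, ?_⟩
    intro ℓ hℓ n
    have h1 := hweak ℓ hℓ n
    show qCoeff ⇑f (ℓ * n) + e ℓ * (if ℓ ∣ n then qCoeff ⇑f (n / ℓ) else 0) =
      qCoeff ⇑f ℓ * qCoeff ⇑f n
    rw [← hlam ℓ hℓ, hc (ℓ * n), hc n, hc (n / ℓ)]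
    have h2 : lam ℓ * ((b 1)⁻¹ * b n) = (b 1)⁻¹ * (lam ℓ * b n) := by ring
    rw [h2, ← h1]
    split_ifs <;> ring
  obtain ⟨-, hmul, hrec⟩ := isRecursive_of_isEigensystem hE
  have hnorm : f.IsNormalizedEigenform :=
    { qCoeff_one := hc1
      qCoeff_mul_of_coprime := hmul
      qCoeff_prime_pow_of_not_dvd := fun p r hp hpN => by
        have := hrec p r hp
        simp only [e, if_neg hpN] at this
        exact this
      qCoeff_prime_pow_of_dvd := fun p r hp hpN => by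
        have := hrec p r hp
        simp only [e, if_pos hpN, zero_mul, sub_zero] at this
        exact this }
  refine ⟨f, hnorm, 𝔪', hmax, ?_, ?_⟩
  · -- 3 ∈ 𝔪'
    have h3mem : ((3 : ℕ) : CuspForm.heckeAlgebra N 2 ∅) ∈ m0 N f₀ := by
      rw [mem_m0]
      have e3 : (((3 : ℕ) : CuspForm.heckeAlgebra N 2 ∅) :
          Module.End ℂ (CuspForm (Gamma0 N) 2)) f₀ = (3 : ℂ) • f₀ := by
        have e3' : (((3 : ℕ) : CuspForm.heckeAlgebra N 2 ∅) :
            Module.End ℂ (CuspForm (Gamma0 N) 2)) =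
            ((3 : ℕ) : Module.End ℂ (CuspForm (Gamma0 N) 2)) := rfl
        rw [e3', Module.End.natCast_apply, ← Nat.cast_smul_eq_nsmul ℂ]
        norm_num
      rw [e3]
      intro n
      exact ⟨af n, by rw [qCoeff_smul, haf n]⟩
    have := hχ _ h3mem
    rwa [map_natCast] at this
  · intro ℓ hℓ hℓN
    refine ⟨χ (CuspForm.heckeAlgebra.T hℓ hℓN (Set.notMem_empty _)), ?_, ?_⟩
    · have := hlam ℓ hℓ
      simp only [lam, dif_pos hℓ, gen, dif_neg hℓN] at this
      exact this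
    · have hmem : CuspForm.heckeAlgebra.T hℓ hℓN (Set.notMem_empty _) -
          ((a ℓ : ℤ) : CuspForm.heckeAlgebra N 2 ∅) ∈ m0 N f₀ := by
        rw [mem_m0]
        have e4 : ((CuspForm.heckeAlgebra.T hℓ hℓN (Set.notMem_empty _) -
            ((a ℓ : ℤ) : CuspForm.heckeAlgebra N 2 ∅) : CuspForm.heckeAlgebra N 2 ∅) :
            Module.End ℂ (CuspForm (Gamma0 N) 2)) f₀ =
            CuspForm.heckeTLin 2 hℓ hℓN f₀ - ((a ℓ : ℤ) : ℂ) • f₀ := by
          have e4' : ((CuspForm.heckeAlgebra.T hℓ hℓN (Set.notMem_empty _) -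
              ((a ℓ : ℤ) : CuspForm.heckeAlgebra N 2 ∅) : CuspForm.heckeAlgebra N 2 ∅) :
              Module.End ℂ (CuspForm (Gamma0 N) 2)) =
              CuspForm.heckeTLin 2 hℓ hℓN -
                ((a ℓ : ℤ) : Module.End ℂ (CuspForm (Gamma0 N) 2)) := rfl
          rw [e4', LinearMap.sub_apply, Module.End.intCast_apply, Int.cast_smul_eq_zsmul]
        rw [e4]
        intro n
        have hE := heig.2 ℓ hℓ n
        simp only [if_neg hℓN] at hE
        obtain ⟨u1, hu1⟩ := haf3 (n * ℓ)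
        obtain ⟨u2, hu2⟩ := three_dvd_sub_chiNegThree ℓ
        obtain ⟨u3, hu3⟩ := haf3 (n / ℓ)
        obtain ⟨u4, hu4⟩ := haf3 n
        rw [Nat.mul_comm ℓ n] at hE
        have e1 : ((ℓ : ℂ)) ^ ((2 : ℤ) - 1) = (ℓ : ℂ) := by norm_num
        rw [qCoeff_sub, qCoeff_heckeTLin hℓ hℓN, qCoeff_smul, e1, ← haf, ← haf, ← haf]
        by_cases hd : ℓ ∣ n
        · rw [if_pos hd] at hE ⊢
          refine ⟨u1 + u2 * af (n / ℓ) + chiNegThree ℓ * u3 - a ℓ * u4, ?_⟩
          have hZ : af (n * ℓ) + (ℓ : ℤ) * af (n / ℓ) - a ℓ * af n =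
              3 * (u1 + u2 * af (n / ℓ) + chiNegThree ℓ * u3 - a ℓ * u4) := by
            linear_combination hu1 + af (n / ℓ) * hu2 + chiNegThree ℓ * hu3 - a ℓ * hu4 + hE
          have hC := congrArg (Int.cast : ℤ → ℂ) hZ
          push_cast at hC ⊢
          exact hC
        · rw [if_neg hd] at hE ⊢
          refine ⟨u1 - a ℓ * u4, ?_⟩
          have hZ : af (n * ℓ) + 0 - a ℓ * af n = 3 * (u1 - a ℓ * u4) := by
            linear_combination hu1 - a ℓ * hu4 + hE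
          have hC := congrArg (Int.cast : ℤ → ℂ) hZ
          push_cast at hC ⊢
          exact hC
      have := hχ _ hmem
      rwa [map_sub, map_intCast] at this

end Fermat.Agent.S49
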