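-- S51: for a semistable integral Weierstrass curve, the mod-3 or the mod-5 representation is irreducible.
-- Proof: no semistable curve has a rational 15-isogeny (X0(15) has only four non-cuspidal rational points).
import Fermat.Statements.S51
import Fermat.Agent.S51.Core
import Fermat.Agent.S51.Galois
import Fermat.Agent.S51.Descent

set_option autoImplicit false
open WeierstrassCurve WeierstrassCurve.Affine WeierstrassCurve.Affine.Point
open CuspForm ModularFormClass UpperHalfPlane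
open WeierstrassCurve

namespace Fermat.Agent.S51

/-- A semistable integral model cannot have one of the four exceptional `j`-invariants
of `X₀(15)`. -/
theorem final_contra (W : WeierstrassCurve ℤ) (hW : W.IsSemistableModel)
    (h : 2 * W.c₄ ^ 3 = -25 * W.Δ ∨ 8 * W.c₄ ^ 3 = -349938025 * W.Δ ∨
      32 * W.c₄ ^ 3 = -121945 * W.Δ ∨ 32768 * W.c₄ ^ 3 = 46969655 * W.Δ) : False := by
  have h5 : Prime (5 : ℤ) := by norm_num
  have hc : (5 : ℤ) ∣ W.c₄ := by
    have h53 : (5 : ℤ) ∣ W.c₄ ^ 3 := by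
      rcases h with h | h | h | h <;> omega
    exact h5.dvd_of_dvd_pow h53
  have hd : (5 : ℤ) ∣ W.Δ := by
    obtain ⟨k, hk⟩ := hc
    rw [hk] at h
    have e : (5 * k) ^ 3 = 125 * k ^ 3 := by ring
    rw [e] at h
    generalize k ^ 3 = t at h
    rcases h with h | h | h | h <;> omega
  exact hW 5 (by norm_num) (by exact_mod_cast hd) (by exact_mod_cast hc)

theorem result (W : WeierstrassCurve ℤ) (hΔ : W.Δ ≠ 0) (hW : W.IsSemistableModel) : W.ModRepIsIrreducible 3 ∨ W.ModRepIsIrreducible 5 := by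
  by_contra hcon
  rw [not_or] at hcon
  obtain ⟨h3, h5⟩ := hcon
  obtain ⟨r, s, p, hb, hc, hd, he, hf⟩ := torsion_data W hΔ h3 h5
  have hrel : (1728 : ℚ) * (W.Δ : ℚ) = (W.c₄ : ℚ) ^ 3 - (W.c₆ : ℚ) ^ 2 := by
    exact_mod_cast W.c_relation
  have hΔq : 4 * (-(W.c₄ : ℚ) / 48) ^ 3 + 27 * (-(W.c₆ : ℚ) / 864) ^ 2 = -(W.Δ : ℚ) / 16 := by
    linear_combination (1 / 27648 : ℚ) * hrel
  have hΔne : 4 * (-(W.c₄ : ℚ) / 48) ^ 3 + 27 * (-(W.c₆ : ℚ) / 864) ^ 2 ≠ 0 := by
    rw [hΔq]
    have : (W.Δ : ℚ) ≠ 0 := by exact_mod_cast hΔ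
    intro h0
    apply this
    linear_combination (-16 : ℚ) * h0
  have hcore := core descent_quartic _ _ r s p hΔne hb hc hd he hf
  rw [hΔq] at hcore
  apply final_contra W hW
  rcases hcore with h | h | h | h
  · left
    have h' : (2 : ℚ) * (W.c₄ : ℚ) ^ 3 = -25 * (W.Δ : ℚ) := by linear_combination (-16 : ℚ) * h
    exact_mod_cast h'
  · right; left
    have h' : (8 : ℚ) * (W.c₄ : ℚ) ^ 3 = -349938025 * (W.Δ : ℚ) := by
      linear_combination (-16 : ℚ) * h
    exact_mod_cast h'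
  · right; right; left
    have h' : (32 : ℚ) * (W.c₄ : ℚ) ^ 3 = -121945 * (W.Δ : ℚ) := by
      linear_combination (-16 : ℚ) * h
    exact_mod_cast h'
  · right; right; right
    have h' : (32768 : ℚ) * (W.c₄ : ℚ) ^ 3 = 46969655 * (W.Δ : ℚ) := by
      linear_combination (-16 : ℚ) * h
    exact_mod_cast h'

end Fermat.Agent.S51
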