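-- Statement S53: existence of the universal deformation ring (Mazur), for deformation conditions
-- in the sense of the Prelude.  The theorem below is the frozen statement
-- GaloisRep.FermatFrozen.S53; the proof assembles the modules under Fermat/Agent/S53/.
import Fermat.Statements.S53
import Fermat.Agent.S53.ProRep
import Fermat.Agent.S53.GoodComplete
import Fermat.Agent.S53.TangentFin
import Fermat.Agent.S53.LiftBridge

set_option autoImplicit false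
set_option autoImplicit false
open GaloisRep

namespace Fermat.Agent.S53

open IsLocalRing GoodIdeals in
/-- Two local algebra maps out of `R` that agree on a dense image are equal. -/
theorem AssemblyAux.eq_of_comp_eq {𝒪 Λ R A : Type} [CommRing 𝒪] [CommRing Λ] [Algebra 𝒪 Λ]
    [CommRing R] [IsLocalRing R] [Algebra 𝒪 R]
    [CommRing A] [IsLocalRing A] [IsNoetherianRing A] [IsAdicComplete (maximalIdeal A) A]
    [Algebra 𝒪 A] (ι : Λ →ₐ[𝒪] R)
    (hdense : ∀ (n : ℕ) (x : R), ∃ t : Λ, x - ι t ∈ maximalIdeal R ^ n)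
    (φ φ' : R →ₐ[𝒪] A) (hφ : IsLocalHom (φ : R →+* A)) (hφ' : IsLocalHom (φ' : R →+* A))
    (h : φ'.comp ι = φ.comp ι) : φ' = φ := by
  have hmap : ∀ (ψ : R →ₐ[𝒪] A), IsLocalHom (ψ : R →+* A) → ∀ (n : ℕ) (y : R),
      y ∈ maximalIdeal R ^ n → ψ y ∈ maximalIdeal A ^ n := by
    intro ψ hψ n y hy
    have h1 : (maximalIdeal R ^ n).map (ψ : R →+* A) ≤ maximalIdeal A ^ n := by
      rw [Ideal.map_pow]
      exact Ideal.pow_right_mono (Ideal.map_le_iff_le_comap.mpr fun a ha =>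
        Ideal.mem_comap.mpr (haveI := hψ; map_nonunit (ψ : R →+* A) a ha)) n
    exact h1 (Ideal.mem_map_of_mem (ψ : R →+* A) hy)
  refine AlgHom.ext fun x => ?_
  refine GoodComplete.eq_of_forall_mk_eq fun n => ?_
  rw [Ideal.Quotient.eq]
  obtain ⟨t, ht⟩ := hdense (n + 1) x
  have h1 : φ' (ι t) = φ (ι t) := AlgHom.congr_fun h t
  have h2 : φ' x - φ x = φ' (x - ι t) - φ (x - ι t) := by
    rw [map_sub, map_sub, h1]; ring
  rw [h2]
  exact Ideal.sub_mem _ (hmap φ' hφ' _ _ ht) (hmap φ hφ _ _ ht)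

open IsLocalRing GoodIdeals in
theorem result
    (𝒪 : Type) [CommRing 𝒪] [IsDomain 𝒪] [IsDiscreteValuationRing 𝒪]
    [IsAdicComplete (IsLocalRing.maximalIdeal 𝒪) 𝒪] [Finite (IsLocalRing.ResidueField 𝒪)]
    (ρbar : ResidualGaloisRep (IsLocalRing.ResidueField 𝒪))
    (𝒟 : ∀ ⦃A : Type⦄ [CommRing A] [IsLocalRing A] [Algebra 𝒪 A], GaloisRepAdic A → Prop)
    (habs : ρbar.IsAbsolutelyIrreducible)
    (h𝒟 : GaloisRep.IsDeformationCondition 𝒪 𝒟)
    (hbar : 𝒟 (GaloisRepAdic.ofResidualGaloisRep ρbar))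
    (hfin : GaloisRep.TangentFinite 𝒪 ρbar 𝒟) :
    Nonempty (GaloisRep.DeformationRingData 𝒪 ρbar 𝒟) := by
  classical
  -- normalisation datum
  obtain ⟨N, b, hN⟩ := exists_ndata (𝒪 := 𝒪) ρbar habs
  have hbar' : IsGood N 𝒟 N.rbar := isGood_rbar N ρbar b hN h𝒟 hbar
  have hfinE := finite_good_dualNumber N ρbar b 𝒟 hN hfin
  have hpro : IsProFamily (chi N) (goodFamily N 𝒟) := isProFamily_good N 𝒟 h𝒟 hbar' hfinE
  -- the pro-representing ring
  obtain ⟨ϖ, hϖ⟩ := IsDiscreteValuationRing.exists_irreducible 𝒪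
  have hϖ' : maximalIdeal 𝒪 = Ideal.span {ϖ} := hϖ.maximalIdeal_eq
  obtain ⟨R, iCR, iLR, iNR, iAC, iAlg, iLH, ι, hres, -, hιF, hdense, huniv⟩ :=
    exists_proRep ϖ hϖ' (chi N) (goodFamily N 𝒟) hpro
  -- the universal normalised lift
  have hgood : goodPred N 𝒟 ι := GoodComplete.goodPred_of_forall_comap_mem h𝒟 iLH hres hιF
  obtain ⟨ru, hru, hlift, hnorm, hcu, hDu⟩ := hgood
  refine ⟨@DeformationRingData.mk 𝒪 _ _ _ _ ρbar 𝒟 R iCR iLR iNR iAC iAlg iLH hres habs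
    (toRep ru hcu) hDu (residual_isEquiv_of_isLift N ρbar b hN ru hcu hlift) ?_⟩
  intro A _ _ _ _ _ hlocA hresA ρA hDA hresid
  obtain ⟨r, hc, hgoodr, heq⟩ :=
    exists_good_of_residual_isEquiv N ρbar b hN h𝒟 hresA ρA hDA hresid
  have hf : ∀ n : ℕ, Ideal.comap (ev (𝒪 := 𝒪) fun σ => r σ) (maximalIdeal A ^ (n + 1)) ∈
      goodFamily N 𝒟 := fun n =>
    GoodComplete.comap_mem_goodFamily h𝒟 hlocA hresA (goodPred_ev hgoodr) n
  obtain ⟨φ, hφloc, hφ⟩ := huniv A (ev (𝒪 := 𝒪) fun σ => r σ) hf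
  -- key: a local map `ψ` with `ψ ∘ ι = ev r` carries the universal lift to `r`
  have hmap : ∀ ψ : R →ₐ[𝒪] A, ψ.comp ι = ev (𝒪 := 𝒪) (fun σ => r σ) →
      mapRep (ψ : R →+* A) ru = r := by
    intro ψ hψ
    refine MonoidHom.ext fun σ => ?_
    ext i j
    have h1 := AlgHom.congr_fun hψ (MvPolynomial.X (σ, i, j))
    rw [AlgHom.comp_apply, ev_X] at h1
    rw [mapRep_apply, hru σ i j]
    exact h1
  have hequiv : ∀ (ψ : R →ₐ[𝒪] A) (hψ : IsLocalHom (ψ : R →+* A)),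
      mapRep (ψ : R →+* A) ru = r →
      ((toRep ru hcu).baseChangeAlong (ψ : R →+* A) hψ).IsEquiv ρA := by
    intro ψ hψ h
    have hc' : IsCont (mapRep (ψ : R →+* A) ru) := h ▸ hc
    obtain ⟨e1⟩ := baseChangeAlong_toRep_isEquiv (ψ : R →+* A) hψ ru hcu hc'
    obtain ⟨e2⟩ := heq
    have e3 : (toRep (mapRep (ψ : R →+* A) ru) hc').IsEquiv (toRep r hc) := by
      subst h
      exact ⟨GaloisRepAdic.Equiv.refl _⟩
    obtain ⟨e3⟩ := e3
    exact ⟨(e1.trans e3).trans e2.symm⟩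
  refine ⟨φ, ⟨hφloc, hequiv φ hφloc (hmap φ hφ)⟩, ?_⟩
  rintro φ' ⟨hφ'loc, hφ'eq⟩
  -- uniqueness
  have hc' : IsCont (mapRep (φ' : R →+* A) ru) := hcu.map (φ' : R →+* A) hφ'loc
  have hl' : IsLift N (mapRep (φ' : R →+* A) ru) := isLift_mapRep φ' hφ'loc hlift
  have hn' : IsNorm N (mapRep (φ' : R →+* A) ru) := isNorm_mapRep φ' hnorm
  have hrr : mapRep (φ' : R →+* A) ru = r := by
    obtain ⟨e1⟩ := baseChangeAlong_toRep_isEquiv (φ' : R →+* A) hφ'loc ru hcu hc'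
    obtain ⟨e2⟩ := heq
    obtain ⟨e4⟩ := hφ'eq
    exact eq_of_toRep_isEquiv N hl' hn' hgoodr.1 hgoodr.2.1 hc' hc ⟨(e1.symm.trans e4).trans e2⟩
  have hcomp : φ'.comp ι = φ.comp ι := by
    rw [hφ]
    refine MvPolynomial.algHom_ext fun ⟨σ, i, j⟩ => ?_
    rw [AlgHom.comp_apply, ev_X, ← hru σ i j, ← hrr, mapRep_apply]
    rfl
  exact AssemblyAux.eq_of_comp_eq ι hdense φ φ' hφloc hφ'loc hcomp

end Fermat.Agent.S53
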