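import Fermat.Statements.S54
import Fermat.Agent.S54.Frobenius

set_option autoImplicit false
open GaloisRep GaloisRep.DeformationRingData

namespace Fermat.Agent.S54

open Polynomial in
theorem trace_eq_neg_charpoly_nextCoeff {R M : Type*} [CommRing R] [AddCommGroup M] [Module R M]
    [Module.Free R M] [Module.Finite R M] (f : Module.End R M) :
    LinearMap.trace R M f = -f.charpoly.nextCoeff := by
  classical
  rw [LinearMap.trace_eq_matrix_trace R (Module.Free.chooseBasis R M) f,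
    Matrix.trace_eq_neg_charpoly_nextCoeff, LinearMap.charpoly_toMatrix]

open Polynomial in
theorem nextCoeff_quadratic {R : Type*} [CommRing R] [Nontrivial R] (a b : R) :
    (X ^ 2 - C a * X + C b : R[X]).nextCoeff = -a := by
  have hdeg : (X ^ 2 - C a * X + C b : R[X]).natDegree = 2 := by
    compute_degree!
  rw [nextCoeff, hdeg]
  simp [coeff_C]

open Polynomial in
theorem trace_eq_of_charpoly {R M : Type*} [CommRing R] [Nontrivial R] [AddCommGroup M]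
    [Module R M] [Module.Free R M] [Module.Finite R M] (f : Module.End R M) (a b : R)
    (h : f.charpoly = X ^ 2 - C a * X + C b) : LinearMap.trace R M f = a := by
  rw [trace_eq_neg_charpoly_nextCoeff, h, nextCoeff_quadratic, neg_neg]

theorem trace_baseChangeAlong {A B : Type} [CommRing A] [IsLocalRing A] [CommRing B]
    [IsLocalRing B] (φ : A →+* B) (hφ : IsLocalHom φ) (ρ : GaloisRepAdic A)
    (σ : AlgebraicClosure ℚ ≃ₐ[ℚ] AlgebraicClosure ℚ) :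
    LinearMap.trace B (ρ.baseChangeAlong φ hφ).V ((ρ.baseChangeAlong φ hφ).ρ σ) =
      φ (LinearMap.trace A ρ.V (ρ.ρ σ)) := by
  letI : Algebra A B := φ.toAlgebra
  exact LinearMap.trace_baseChange (ρ.ρ σ) B

theorem trace_eq_of_equiv {A : Type} [CommRing A] [IsLocalRing A] {ρ₁ ρ₂ : GaloisRepAdic A}
    (e : GaloisRepAdic.Equiv ρ₁ ρ₂) (σ : AlgebraicClosure ℚ ≃ₐ[ℚ] AlgebraicClosure ℚ) :
    LinearMap.trace A ρ₁.V (ρ₁.ρ σ) = LinearMap.trace A ρ₂.V (ρ₂.ρ σ) := by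
  have h : ρ₂.ρ σ = e.toLinearEquiv.conj (ρ₁.ρ σ) := by
    ext x
    rw [LinearEquiv.conj_apply_apply, e.map_apply, LinearEquiv.apply_symm_apply]
  rw [h, LinearMap.trace_conj']

theorem result {𝒪 : Type} [CommRing 𝒪] [IsDomain 𝒪] [IsDiscreteValuationRing 𝒪] [IsAdicComplete (IsLocalRing.maximalIdeal 𝒪) 𝒪] {ρbar : ResidualGaloisRep (IsLocalRing.ResidueField 𝒪)} {𝒟 : ∀ ⦃A : Type⦄ [CommRing A] [IsLocalRing A] [Algebra 𝒪 A], GaloisRepAdic A → Prop} (D : GaloisRep.DeformationRingData 𝒪 ρbar 𝒟) {N : ℕ} [NeZero N] {S : Set ℕ} {θ : CuspForm.heckeAlgebra N 2 S →+* IsLocalRing.ResidueField 𝒪} {T : Type} [CommRing T] [IsLocalRing T] [IsNoetherianRing T] [IsAdicComplete (IsLocalRing.maximalIdeal T) T] [Algebra 𝒪 T] [IsLocalHom (algebraMap 𝒪 T)] [Module.Finite 𝒪 T] [Module.Free 𝒪 T] (H : CuspForm.HeckeGaloisRepDatum N S 𝒪 θ T) (hS : ∀ q : ℕ, q.Prime → q ∣ N → q ∈ S) (h𝒟 : 𝒟 H.ρ) (hres : H.ρ.residual.IsEquiv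 (ρbar.baseChangeAlong (IsLocalRing.ResidueField.map (algebraMap 𝒪 T)))) : ∃ φ : D.R →ₐ[𝒪] T, Function.Surjective φ ∧ ∃ hφ : IsLocalHom (φ : D.R →+* T), (D.ρ.baseChangeAlong (φ : D.R →+* T) hφ).IsEquiv H.ρ := by
  obtain ⟨φ, ⟨hφ, hequiv⟩, -⟩ := D.universal T H.residue_surjective H.ρ h𝒟 hres
  refine ⟨φ, ?_, hφ, hequiv⟩
  obtain ⟨e⟩ := hequiv
  have htr : ∀ σ : AlgebraicClosure ℚ ≃ₐ[ℚ] AlgebraicClosure ℚ,
      LinearMap.trace T H.ρ.V (H.ρ.ρ σ) = φ (LinearMap.trace D.R D.ρ.V (D.ρ.ρ σ)) := by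
    intro σ
    rw [← trace_eq_of_equiv e σ]
    exact trace_baseChangeAlong (φ : D.R →+* T) hφ D.ρ σ
  have hgen : ∀ (x : Module.End ℂ (CuspForm (CongruenceSubgroup.Gamma0 N) 2))
      (hx : x ∈ Algebra.adjoin ℤ (CuspForm.heckeGenerators N 2 S)),
      H.π ⟨x, hx⟩ ∈ φ.range := by
    intro x hx
    induction hx using Algebra.adjoin_induction with
    | mem x hx =>
      rcases hx with ⟨ℓ, hℓ, hℓN, hℓS, rfl⟩ | ⟨q, hqN, hq, hqS, rfl⟩
      · obtain ⟨A, σ, hA, hσ⟩ := exists_isFrobeniusAt ℓ hℓ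
        have hchar := H.charpoly_frob ℓ hℓ hℓN hℓS A hA σ hσ
        have h1 := trace_eq_of_charpoly _ _ _ hchar
        rw [htr σ] at h1
        exact ⟨_, h1⟩
      · exact absurd (hS q hq hqN) hqS
    | algebraMap r =>
      have : H.π ⟨algebraMap ℤ _ r, Subalgebra.algebraMap_mem _ r⟩ = (r : T) :=
        map_intCast H.π r
      rw [this]
      exact intCast_mem _ r
    | add x y hx hy ihx ihy =>
      have : H.π ⟨x + y, add_mem hx hy⟩ = H.π ⟨x, hx⟩ + H.π ⟨y, hy⟩ :=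
        map_add H.π ⟨x, hx⟩ ⟨y, hy⟩
      rw [this]
      exact add_mem ihx ihy
    | mul x y hx hy ihx ihy =>
      have : H.π ⟨x * y, mul_mem hx hy⟩ = H.π ⟨x, hx⟩ * H.π ⟨y, hy⟩ :=
        map_mul H.π ⟨x, hx⟩ ⟨y, hy⟩
      rw [this]
      exact mul_mem ihx ihy
  intro t
  have htop : t ∈ (⊤ : Subalgebra 𝒪 T) := Algebra.mem_top
  rw [← H.adjoin_range_π] at htop
  have hle : Algebra.adjoin 𝒪 (Set.range H.π) ≤ φ.range := by
    apply Algebra.adjoin_le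
    rintro _ ⟨t, rfl⟩
    exact hgen t.1 t.2
  exact hle htop

end Fermat.Agent.S54
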