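-- Statement S57: the patching descent step (`Algebra.PatchingLevel.free_and_ker_eq_span`).
import Fermat.Prelude.Def_Algebra_PatchingDatum
import Fermat.Agent.S57.Level

set_option autoImplicit false
open Algebra Algebra.PatchingLevel

namespace Fermat.Agent.S57

theorem repr_mem_of_mem_smul_top {A : Type*} [CommRing A] {N : Type*} [AddCommGroup N]
    [Module A N] {ι : Type*} (B : Module.Basis ι A N) (I : Ideal A) {x : N}
    (hx : x ∈ I • (⊤ : Submodule A N)) (j : ι) : B.repr x j ∈ I := by
  rw [← B.span_eq] at hx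
  obtain ⟨a, ha, rfl⟩ := (Submodule.mem_ideal_smul_span_iff_exists_sum I B x).mp hx
  have h : B.repr (a.sum fun i c => c • B i) = a := by
    rw [← Finsupp.linearCombination_apply, B.repr_linearCombination]
  rw [h]
  exact ha j

theorem result
    {𝒪 : Type} [CommRing 𝒪] [IsDomain 𝒪] [IsDiscreteValuationRing 𝒪]
    {r : ℕ} {R : Type} [CommRing R] [Algebra 𝒪 R]
    {M : Type} [AddCommGroup M] [Module R M] [Nontrivial M]
    (L : Algebra.PatchingLevel 𝒪 r R M ⊥) :
    Module.Free R M ∧ Module.annihilator R M = ⊥ ∧
      RingHom.ker L.ψ = Ideal.span (Set.range fun i : Fin r => L.φ (MvPowerSeries.X i)) := by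
  have hfree : Module.Free (MvPowerSeries (Fin r) 𝒪) L.N := level_free L
  have hnt : Nontrivial L.N := L.π_surjective.nontrivial
  let ι := Module.Free.ChooseBasisIndex (MvPowerSeries (Fin r) 𝒪) L.N
  let B : Module.Basis ι (MvPowerSeries (Fin r) 𝒪) L.N :=
    Module.Free.chooseBasis (MvPowerSeries (Fin r) 𝒪) L.N
  have hne : Nonempty ι := B.index_nonempty
  -- the key property: elements in the kernel of `π` have coordinates in `I`
  have key : ∀ x : L.N, L.π x = 0 → ∀ j, B.repr x j ∈
      Ideal.span (Set.range fun i : Fin r => L.φ (MvPowerSeries.X i)) := fun x hx j =>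
    repr_mem_of_mem_smul_top B _ ((L.ker_π x).mp hx) j
  have hle : Ideal.span (Set.range fun i : Fin r => L.φ (MvPowerSeries.X i)) ≤ RingHom.ker L.ψ := by
    rw [Ideal.span_le]
    rintro _ ⟨i, rfl⟩
    exact L.ψ_φ_X i
  -- elements acting trivially lie in `I`
  have key2 : ∀ f : MvPowerSeries (Fin r) 𝒪, (∀ m : M, L.ψ f • m = 0) →
      f ∈ Ideal.span (Set.range fun i : Fin r => L.φ (MvPowerSeries.X i)) := by
    intro f hf
    obtain ⟨j⟩ := hne
    have h1 : L.π (f • B j) = 0 := by rw [L.π_smul, hf]
    have h2 := key _ h1 j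
    simpa using h2
  have hπ_sum : ∀ (s : Finset ι) (f : ι → MvPowerSeries (Fin r) 𝒪),
      L.π (∑ i ∈ s, f i • B i) = ∑ i ∈ s, L.ψ (f i) • L.π (B i) := by
    intro s f
    rw [map_sum]
    exact Finset.sum_congr rfl fun i _ => L.π_smul _ _
  refine ⟨?_, ?_, ?_⟩
  · -- freeness
    have hli : LinearIndependent R (fun j : ι => L.π (B j)) := by
      classical
      rw [linearIndependent_iff']
      intro s g hg j hj
      let f : ι → MvPowerSeries (Fin r) 𝒪 := fun i => Function.surjInv L.ψ_surjective (g i)
      have hf : ∀ i, L.ψ (f i) = g i := fun i => Function.surjInv_eq L.ψ_surjective (g i)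
      have h1 : L.π (∑ i ∈ s, f i • B i) = 0 := by
        rw [hπ_sum, ← hg]
        exact Finset.sum_congr rfl fun i _ => by rw [hf]
      have h2 := key _ h1 j
      have h3 : B.repr (∑ i ∈ s, f i • B i) j = f j := by
        simp [Finsupp.single_apply, hj]
      rw [h3] at h2
      rw [← hf j]
      exact hle h2
    have hsp : ⊤ ≤ Submodule.span R (Set.range fun j : ι => L.π (B j)) := by
      intro m hm
      clear hm
      obtain ⟨x, rfl⟩ := L.π_surjective m
      have hx : x ∈ Submodule.span (MvPowerSeries (Fin r) 𝒪) (Set.range B) := by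
        rw [B.span_eq]; trivial
      induction hx using Submodule.span_induction with
      | mem x hx =>
        obtain ⟨j, rfl⟩ := hx
        exact Submodule.subset_span ⟨j, rfl⟩
      | zero => rw [map_zero]; exact Submodule.zero_mem _
      | add x y _ _ hx hy => rw [map_add]; exact Submodule.add_mem _ hx hy
      | smul a x _ hx => rw [L.π_smul]; exact Submodule.smul_mem _ _ hx
    exact Module.Free.of_basis (Module.Basis.mk hli hsp)
  · -- faithfulness
    rw [eq_bot_iff]
    intro a ha
    rw [Module.mem_annihilator] at ha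
    obtain ⟨f, rfl⟩ := L.ψ_surjective a
    exact hle (key2 f ha)
  · -- the kernel
    refine le_antisymm ?_ hle
    intro f hf
    rw [RingHom.mem_ker] at hf
    exact key2 f (fun m => by rw [hf, zero_smul])

end Fermat.Agent.S57
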